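/-
Programme T1B (S44), J-BRIDGE, brick (B1) CHARTISO-N, part 2 (helper48): **the constructor of
helper39's `Bridge39.ChartIsoFamilyN` from a family of chart isomorphisms which is STANDARD on pure
tensors** (twin of helper90's `T1/ChartIsoFam90.chartIsoFamily_of_std`, with independent level `N`,
field of constants `K` ANY intermediate field (no normality), `W = A ∩ K`, and TRIVIAL chart action:
only `σ ∈ G_ℚ` fixing `K` pointwise are considered).

Input: embeddings `β_j : B_j →+* FK N K` of the chart rings of a two-chart datum `c0` over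
`W = A ∩ K` into the function field over `K` (in the application the inclusions `↥B_j ⊂ FK N K`), and
for every finite normal `L ⊇ K` a chart isomorphism `E L hle : ChartIso (c0.baseChange ↥L) (t L hle)`
which is standard: `(E L hle).e_j (l ⊗ b) = l · cLL (β_j b)` (`hstd`; for `Bridge48.ChartIsoN.chartIsoN`
/ `Bridge25.ChartIsoGen.chartIsoN` this is `chartIsoN_e0/e1/e01_tmul`, by `rfl`), and
`IsCoord N (t L hle)`.

Output: `chartIsoFamilyN_of_std : ChartIsoFamilyN A N K c0`; all compatibilities (`t_tower`,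
`tower0/1`, `t_gal`, `gal0/1`) are derived (`t L hle = cLL (β0 c0.t)` is forced).  The Galois
compatibilities need NO hypothesis on the `β_j`: `σ` fixing `K` pointwise acts trivially on
`cLL (FK N K) ⊂ FK N L` (`arith_cLL_of_fixes`).
-/
import Mathlib
import Fermat.Agent.T1.ChartIso90
import Fermat.Agent.T1B.Bridge39.Family

set_option autoImplicit false
set_option linter.unusedSectionVars false
set_option linter.style.haveILetI false
set_option synthInstance.maxHeartbeats 400000
set_option maxHeartbeats 1000000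

noncomputable section

open TensorProduct IntermediateField ModularCurve

namespace Fermat.Agent.T1B.Bridge48.Family

open Fermat.Agent Fermat.Agent.Jac Fermat.Agent.T1.HubInst98
open Fermat.Agent.RED.Interface4 Fermat.Agent.T1.Adapt96 Fermat.Agent.T1.Dict59
open Fermat.Agent.T1.ChartIso90 Fermat.Agent.T1B.Bridge39
open Fermat.Agent.Jac.BaseChange75
open scoped Fermat.Agent.Jac.BaseChange75
open scoped Fermat.Agent.T1.ChartIso90

/-! ### Toolkit -/

section Toolkit

variable (N : ℕ) {K L : IntermediateField ℚ Qbar}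

/-- The arithmetic action of the identity is the identity. -/
theorem arith_refl (x : FK N K) : arith N K AlgEquiv.refl x = x := by
  apply Subtype.ext
  rw [coe_arith]
  have h : ((AlgEquiv.refl : K ≃ₐ[ℚ] K) : K →+* K) = RingHom.id K := RingHom.ext fun a => rfl
  rw [h, coeffMap_id]

/-- **`σ ∈ G_ℚ` fixing `K` pointwise acts trivially on the image of `FK N K` in `FK N L`.** -/
theorem arith_cLL_of_fixes [Normal ℚ L] (hle : K ≤ L) (σ : Qbar ≃ₐ[ℚ] Qbar)
    (hσ : ∀ a ∈ K, σ a = a) (x : FK N K) :
    arith N L (resL L σ) (cLL N hle x) = cLL N hle x := by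
  rw [arith_cLL_of_comm N hle AlgEquiv.refl (resL L σ) (fun a => ?_) x, arith_refl]
  apply Subtype.ext
  rw [coe_resL]
  exact hσ _ a.2

end Toolkit

/-! ### Consequences of standardness over one field -/

section One

variable {N : ℕ} {K L : IntermediateField ℚ Qbar}
variable {W B0 B1 B01 : Type} [CommRing W] [CommRing B0] [CommRing B1] [CommRing B01]
  [Algebra W B0] [Algebra W B1] [Algebra W B01] [Algebra B0 B01] [Algebra B1 B01]
  [IsScalarTower W B0 B01] [IsScalarTower W B1 B01] {c0 : TwoChart W B0 B1 B01}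
  [Algebra W ↥L] {hle : K ≤ L}
  {β0 : B0 →+* FK N K} {β1 : B1 →+* FK N K} {β01 : B01 →+* FK N K} {t : FK N L}
  {E : ChartIso (c0.baseChange ↥L) t}

theorem stdIso_ι0_one_tmul (h : IsStdIso N hle β0 β1 β01 E) (b : B0) :
    E.ι0 ((1 : ↥L) ⊗ₜ[W] b) = cLL N hle (β0 b) :=
  h.std0.one_tmul b

theorem stdIso_ι1_one_tmul (h : IsStdIso N hle β0 β1 β01 E) (b : B1) :
    E.ι1 ((1 : ↥L) ⊗ₜ[W] b) = cLL N hle (β1 b) :=
  h.std1.one_tmul b

theorem stdIso_e01_one_tmul (h : IsStdIso N hle β0 β1 β01 E) (b : B01) :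
    E.e01 ((1 : ↥L) ⊗ₜ[W] b) = cLL N hle (β01 b) :=
  h.std01.one_tmul b

/-- The coordinate of a standard chart isomorphism is forced. -/
theorem stdIso_t_eq (h : IsStdIso N hle β0 β1 β01 E) : t = cLL N hle (β0 c0.t) := by
  rw [← stdIso_ι0_one_tmul h c0.t]
  exact E.map_t.symm

end One

/-! ### The family -/

section Fam

variable (A : ValuationSubring Qbar) (N : ℕ) [NeZero N] (K : IntermediateField ℚ Qbar)
  {B0 B1 B01 : Type} [CommRing B0] [CommRing B1] [CommRing B01]
  [Algebra (AK A K) B0] [Algebra (AK A K) B1] [Algebra (AK A K) B01] [Algebra B0 B01]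
  [Algebra B1 B01] [IsScalarTower (AK A K) B0 B01] [IsScalarTower (AK A K) B1 B01]
  (c0 : TwoChart (AK A K) B0 B1 B01)

/-- **The chart isomorphism family (nodal / general `K`, trivial chart action) from a family
standard on pure tensors.** -/
def chartIsoFamilyN_of_std
    (β0 : B0 →+* FK N K) (β1 : B1 →+* FK N K) (β01 : B01 →+* FK N K)
    (t : ∀ (L : IntermediateField ℚ Qbar) [FiniteDimensional ℚ L] [Normal ℚ L] (_ : K ≤ L),
      FK N L)
    (isCoord : ∀ (L : IntermediateField ℚ Qbar) [FiniteDimensional ℚ L] [Normal ℚ L]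
      (hle : K ≤ L), IsCoord N (t L hle))
    (E : ∀ (L : IntermediateField ℚ Qbar) [FiniteDimensional ℚ L] [Normal ℚ L] (hle : K ≤ L),
      letI := algAKL A hle
      ChartIso (c0.baseChange ↥L) (t L hle))
    (hstd : ∀ (L : IntermediateField ℚ Qbar) [FiniteDimensional ℚ L] [Normal ℚ L] (hle : K ≤ L),
      letI := algAKL A hle
      IsStdIso N hle β0 β1 β01 (E L hle)) :
    ChartIsoFamilyN A N K c0 where
  t := t
  isCoord := isCoord
  E := E
  t_tower := fun L₁ L _ _ _ _ hle₁ hL => by
    letI := algAKL A hle₁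
    have h1 := stdIso_t_eq (hstd L₁ hle₁)
    letI := algAKL A (hle₁.trans hL)
    have h2 := stdIso_t_eq (hstd L (hle₁.trans hL))
    rw [h2, h1, cLL_cLL]
  tower0 := fun L₁ L _ _ _ _ hle₁ hL b => by
    letI := algAKL A hle₁
    have h1 := stdIso_ι0_one_tmul (hstd L₁ hle₁) b
    letI := algAKL A (hle₁.trans hL)
    have h2 := stdIso_ι0_one_tmul (hstd L (hle₁.trans hL)) b
    rw [h2, h1, cLL_cLL]
  tower1 := fun L₁ L _ _ _ _ hle₁ hL b => by
    letI := algAKL A hle₁
    have h1 := stdIso_ι1_one_tmul (hstd L₁ hle₁) b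
    letI := algAKL A (hle₁.trans hL)
    have h2 := stdIso_ι1_one_tmul (hstd L (hle₁.trans hL)) b
    rw [h2, h1, cLL_cLL]
  t_gal := fun L _ _ hle σ hσ => by
    letI := algAKL A hle
    have h1 := stdIso_t_eq (hstd L hle)
    rw [h1, arith_cLL_of_fixes N hle σ hσ]
  gal0 := fun L _ _ hle σ hσ b => by
    letI := algAKL A hle
    have h1 := stdIso_ι0_one_tmul (hstd L hle) b
    rw [h1, arith_cLL_of_fixes N hle σ hσ]
  gal1 := fun L _ _ hle σ hσ b => by
    letI := algAKL A hle
    have h1 := stdIso_ι1_one_tmul (hstd L hle) b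
    rw [h1, arith_cLL_of_fixes N hle σ hσ]

end Fam

end Fermat.Agent.T1B.Bridge48.Family
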