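/-
T1B (S44), J-BRIDGE slice (B1) CHARTISO-N (helper48), part 2b: **the record of the nodal hub at a number
field, its coordinate, and the transport lemmas.**

* `chartIsoCast` : transport of an `Adapt96.ChartIso c t` along `t = t'` (`ι0/ι1/e01` unchanged).
* `NodalHubAt A q M' n e K` : the nodal hub data at the number field `K` (the output of
  `ES/P36/ModelQAt4.nodalNumData_four_at` / `ModelInert4.nodalNumData_four_inertial`): `ht`, `hE`, a
  uniformiser `π` of `A ∩ K` and `num : NodalNumData …`;
  `NodalHubAt.c0 := nodalChart num.model : TwoChart (A ∩ K) B0 B1 (B0 ⊔ B1)`,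
  `NodalHubAt.β0/β1/β01` the inclusions `↥B_j →+* FK (M' q) K` (the `β_j` of
  `Bridge48.Family.chartIsoFamilyN_of_std`).
* `cLL_tN` : the coordinates over `K ≤ L` correspond under `Dict59.cLL`.
* `transcendental_tN`, `isCoord_tN` : **`tN q ht` is a coordinate of `L·F_{M' q}`**
  (`Dict59.IsCoord`), for every subfield `L ⊂ ℚ̄` (no model needed: `j` generates by
  `ES/KUM/FieldL25.isGen_jL`, and `tq` has a pole).
-/
import Mathlib
import Fermat.Agent.T1B.NodalFacts23.Good
import Fermat.Agent.ES.N34.NumData13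
import Fermat.Agent.ES.N34.ModelDefs9
import Fermat.Agent.ES.KUM.FieldL25
import Fermat.Agent.RED.BASE.TBridge15
import Fermat.Agent.X0.FFConst
import Fermat.Agent.T1.Dict59.Iface2
import Fermat.Agent.T1.Adapt96.ToLinePair

set_option autoImplicit false
set_option linter.unusedSectionVars false
set_option linter.style.haveILetI false
set_option synthInstance.maxHeartbeats 400000
set_option maxHeartbeats 1000000

noncomputable section

open TensorProduct

namespace Fermat.Agent.T1B.Bridge48.HubRec

open Fermat.Agent.T1.Adapt96 Fermat.Agent.Jac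

/-! ### Transport of a chart isomorphism along an equality of coordinates -/

section Cast

universe u v

variable {K : Type u} [Field K] {R0 R1 R01 : Type u} [CommRing R0] [CommRing R1] [CommRing R01]
  [Algebra K R0] [Algebra K R1] [Algebra K R01] [Algebra R0 R01] [Algebra R1 R01]
  [IsScalarTower K R0 R01] [IsScalarTower K R1 R01]
  {F : Type v} [Field F] [Algebra K F] {c : TwoChart K R0 R1 R01}

/-- transport of a chart isomorphism along `t = t'`. -/
def chartIsoCast {t t' : F} (E : ChartIso c t) (h : t = t') : ChartIso c t' := h ▸ E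

theorem chartIsoCast_ι0 {t t' : F} (E : ChartIso c t) (h : t = t') :
    (chartIsoCast E h).ι0 = E.ι0 := by subst h; rfl

theorem chartIsoCast_ι1 {t t' : F} (E : ChartIso c t) (h : t = t') :
    (chartIsoCast E h).ι1 = E.ι1 := by subst h; rfl

theorem chartIsoCast_e01 {t t' : F} (E : ChartIso c t) (h : t = t') :
    (chartIsoCast E h).e01 = E.e01 := by subst h; rfl

end Cast

/-! ### The hub data at a number field -/

open HahnSeries ModularCurve IntermediateField
open Fermat.Agent.RED.Interface4 Fermat.Agent.RED.PUR.GaussGen8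
  Fermat.Agent.RED.BASE.EtaQuot12 Fermat.Agent.ES.N34.ModelDefs9 Fermat.Agent.ES.N34.NumData13
  Fermat.Agent.ES.N34.NodalCore13 Fermat.Agent.T1B.NodalFacts23
  Fermat.Agent.T1.Dict59 Fermat.Agent.T1.Coh60

variable (A : ValuationSubring Qbar) (q M' n e : ℕ) [NeZero q] [NeZero M'] [NeZero n]

/-- **The nodal hub data at the number field `K`.** -/
structure NodalHubAt (K : IntermediateField ℚ Qbar) where
  ht : tq (↥K) n e ∈ FK M' K
  hE : FK (M' * q) K ≤ fracField (AK A K)
  π : ↥(AK A K)
  hπ : IsUnif (AK A K) π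
  num : NodalNumData ↥(AK A K) ↥K ↥(FK (M' * q) K) π (tN q ht) (B0 A q ht) (B1 A q ht)
    (O1 M' q hπ hE) (O2 M' q hπ hE)

variable {A q M' n e}

namespace NodalHubAt

variable {K : IntermediateField ℚ Qbar} (H : NodalHubAt A q M' n e K)

/-- the coordinate of the hub. -/
def t : FK (M' * q) K := tN q H.ht

/-- **The nodal two-chart datum of the hub.** -/
def c0 :
    @TwoChart ↥(AK A K) ↥(B0 A q H.ht) ↥(B1 A q H.ht) ↥(B0 A q H.ht ⊔ B1 A q H.ht) _ _ _ _ _ _ _
      (algebra0 _ _) (algebra1 _ _) (isScalarTower0 _ _) (isScalarTower1 _ _) :=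
  nodalChart H.num.model

/-- the inclusion of chart `0` into the function field. -/
def β0 : ↥(B0 A q H.ht) →+* FK (M' * q) K := (B0 A q H.ht).val.toRingHom

/-- the inclusion of chart `1` into the function field. -/
def β1 : ↥(B1 A q H.ht) →+* FK (M' * q) K := (B1 A q H.ht).val.toRingHom

/-- the inclusion of the overlap chart into the function field. -/
def β01 : ↥(B0 A q H.ht ⊔ B1 A q H.ht) →+* FK (M' * q) K :=
  (B0 A q H.ht ⊔ B1 A q H.ht).val.toRingHom

@[simp] theorem β0_apply (b : ↥(B0 A q H.ht)) : H.β0 b = (b : FK (M' * q) K) := rfl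
@[simp] theorem β1_apply (b : ↥(B1 A q H.ht)) : H.β1 b = (b : FK (M' * q) K) := rfl
@[simp] theorem β01_apply (b : ↥(B0 A q H.ht ⊔ B1 A q H.ht)) :
    H.β01 b = (b : FK (M' * q) K) := rfl

theorem β0_t : H.β0 (letI := algebra0 (B0 A q H.ht) (B1 A q H.ht)
    letI := algebra1 (B0 A q H.ht) (B1 A q H.ht)
    haveI := isScalarTower0 (B0 A q H.ht) (B1 A q H.ht)
    haveI := isScalarTower1 (B0 A q H.ht) (B1 A q H.ht)
    H.c0.t) = tN q H.ht := rfl

end NodalHubAt

/-! ### The coordinate over varying fields -/

section Coord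

variable {K L : IntermediateField ℚ Qbar}

/-- the coordinates correspond under the coefficient extension. -/
theorem cLL_tN (h : K ≤ L) (htK : tq (↥K) n e ∈ FK M' K) (htL : tq (↥L) n e ∈ FK M' L) :
    cLL (M' * q) h (tN q htK) = tN q htL := by
  apply Subtype.ext
  show coeffMap (IntermediateField.inclusion h).toRingHom
    ((tN q htK : FK (M' * q) K) : LaurentSeries K) = ((tN q htL : FK (M' * q) L) : LaurentSeries L)
  rw [coe_tN, coe_tN]
  exact coeffMap_tq (R := ↥K) _ n e

/-- the Hauptmodul at the bad level is transcendental over the constants. -/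
theorem transcendental_tN (htL : tq (↥L) n e ∈ FK M' L) :
    Transcendental ↥L (tN q htL) := by
  intro halg
  have h1 : IsAlgebraic ↥L ((tN q htL : FK (M' * q) L) : LaurentSeries L) :=
    halg.algHom (FK (M' * q) L).val
  rw [coe_tN] at h1
  exact Fermat.Agent.RED.BASE.TBridge15.transcendental_tq (↥L) n e h1

/-- **`tN q ht` is a coordinate of `L·F_{M' q}`.** -/
theorem isCoord_tN (htL : tq (↥L) n e ∈ FK M' L) : IsCoord (M' * q) (tN q htL) :=
  Fermat.Agent.X0.FF.IsGen.of_transcendental
    (Fermat.Agent.ES.KUM.FieldL25.isGen_jL (↥L) (M' * q)) (transcendental_tN htL)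

end Coord

end Fermat.Agent.T1B.Bridge48.HubRec
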