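/-
T1B (S44), J-BRIDGE slice (B1) CHARTISO-N (helper48), part 2d: **the chart isomorphism family of the
nodal hub, from a standard family `E_L`** (assembly of `Bridge48/Family.chartIsoFamilyN_of_std`
with the record `Bridge48/HubRec.NodalHubAt`).

* `tq_mem_of_le` : `tq ∈ K·F_{M'}` ⇒ `tq ∈ L·F_{M'}` for `K ≤ L` (so the coordinate `tN q _` exists over
  every `L ⊇ K`); `htL`, `tL`, `cLL_t`, `isCoord_tL`.
* `nodalFamily H E hstd : Bridge39.ChartIsoFamilyN A (M' * q) K H.c0` for ANY family
  `E L hle : ChartIso (H.c0.baseChange ↥L) (tL H hle)` (over the finite normal `L ⊇ K`) which is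
  standard on pure tensors for the inclusions `H.β0, H.β1, H.β01`
  (to be provided by `Bridge25/ChartIsoNF` from `Bridge25.ChartIsoGen.chartIsoN`).
-/
import Mathlib
import Fermat.Agent.T1B.Bridge48.Family
import Fermat.Agent.T1B.Bridge48.HubRec

set_option autoImplicit false
set_option linter.unusedSectionVars false
set_option linter.style.haveILetI false
set_option synthInstance.maxHeartbeats 400000
set_option maxHeartbeats 1000000

noncomputable section

open TensorProduct

namespace Fermat.Agent.T1B.Bridge48.HubFam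

open HahnSeries ModularCurve IntermediateField
open Fermat.Agent Fermat.Agent.Jac Fermat.Agent.T1.HubInst98
open Fermat.Agent.RED.Interface4 Fermat.Agent.RED.PUR.GaussGen8
  Fermat.Agent.RED.BASE.EtaQuot12 Fermat.Agent.ES.N34.ModelDefs9 Fermat.Agent.ES.N34.NumData13
  Fermat.Agent.T1.Adapt96 Fermat.Agent.T1.Dict59 Fermat.Agent.T1.Coh60
  Fermat.Agent.T1.ChartIso90 Fermat.Agent.T1B.Bridge39
  Fermat.Agent.T1B.Bridge48.HubRec Fermat.Agent.T1B.Bridge48.Family
open scoped Fermat.Agent.Jac.BaseChange75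

variable {A : ValuationSubring Qbar} {q M' n e : ℕ} [NeZero q] [NeZero M'] [NeZero n]
  {K L : IntermediateField ℚ Qbar}

/-- the Hauptmodul lies in `L·F_{M'}` as soon as it lies in `K·F_{M'}`, `K ≤ L`. -/
theorem tq_mem_of_le (h : K ≤ L) (htK : tq (↥K) n e ∈ FK M' K) : tq (↥L) n e ∈ FK M' L := by
  have h1 : ((cLL M' h (tM htK) : FK M' L) : LaurentSeries L) ∈ FK M' L := (cLL M' h (tM htK)).2
  rw [coe_cLL, coe_tM, coeffMap_tq] at h1
  exact h1

section TL

/-- the Hauptmodul over `L ⊇ K`. -/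
theorem htL (H : NodalHubAt A q M' n e K) (h : K ≤ L) : tq (↥L) n e ∈ FK M' L := tq_mem_of_le h H.ht

/-- the coordinate over `L ⊇ K`. -/
def tL (H : NodalHubAt A q M' n e K) (h : K ≤ L) : FK (M' * q) L := tN q (htL H h)

theorem cLL_t (H : NodalHubAt A q M' n e K) (h : K ≤ L) : cLL (M' * q) h (tN q H.ht) = tL H h :=
  cLL_tN h H.ht (htL H h)

theorem isCoord_tL (H : NodalHubAt A q M' n e K) (h : K ≤ L) : IsCoord (M' * q) (tL H h) := isCoord_tN (htL H h)

end TL

attribute [local instance] Fermat.Agent.T1.Coh60.algebra0 Fermat.Agent.T1.Coh60.algebra1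
  Fermat.Agent.T1.Coh60.isScalarTower0 Fermat.Agent.T1.Coh60.isScalarTower1

/-- **The chart isomorphism family of the nodal hub** from a family of chart isomorphisms standard
on pure tensors. -/
def nodalFamily (H : NodalHubAt A q M' n e K) [NeZero (M' * q)]
    (E : ∀ (L : IntermediateField ℚ Qbar) [FiniteDimensional ℚ L] [Normal ℚ L] (hle : K ≤ L),
      letI := algAKL A hle
      ChartIso (H.c0.baseChange ↥L) (tL H hle))
    (hstd : ∀ (L : IntermediateField ℚ Qbar) [FiniteDimensional ℚ L] [Normal ℚ L] (hle : K ≤ L),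
      letI := algAKL A hle
      IsStdIso (M' * q) hle H.β0 H.β1 H.β01 (E L hle)) :
    ChartIsoFamilyN A (M' * q) K H.c0 :=
  chartIsoFamilyN_of_std A (M' * q) K H.c0 H.β0 H.β1 H.β01
    (fun _ _ _ hle => tL H hle) (fun _ _ _ hle => isCoord_tL H hle) E hstd

end Fermat.Agent.T1B.Bridge48.HubFam
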