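/-
T1B (S44), J-BRIDGE slice (B1) CHARTISO-N (helper48), part 1: the NODAL twin of
`T1/ChartIso20.chartIso`.

`hK : NodalTwoChartModel R F π t B0 B1 O1 O2` (the nodal model over the small field `K = Frac R`),
`hL : NodalTwoChartModel R' F' π' (D.iF t) B0' B1' O1' O2'` (the nodal model over `L = Frac R'`),
`D : BCData K L π π' O1 O1'`, `hld2 : LD2 D O2 O2'` (helper23's NODAL MODEL-BC inputs).  Then the hub
rings `L ⊗[R] ↥B_j` of the generic fibre of `nodalChart hK` are identified with the field-level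
charts `Dict59.C0/C1 (K := L) (D.iF t)` (integral closures of `L[t']`, `L[t'⁻¹]` in `F'`) by the
multiplication maps `ModelBC51.Equiv.nu`:

* `chartIsoN : Adapt96.ChartIso ((nodalChart hK).baseChange L) (D.iF t)`;
* `chartIsoN_e0_tmul / _e1_tmul / _e01_tmul` : `E (l ⊗ b) = l · D.iF b` (`rfl`);
* `isStdIsoG_chartIsoN` : the isomorphism is STANDARD (`ChartIso90.IsStdIsoG`) for
  `γ_j = D.iF ∘ (↑)`, so that tower compatibility (`ChartIso90.chartIsoG_baseChange*`) and
  semilinear compatibility (`chartIsoG_semi*`) follow from the generic core of `T1/ChartIso90`.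
-/
import Mathlib
import Fermat.Agent.T1.ChartIso20
import Fermat.Agent.T1.ChartIso90
import Fermat.Agent.T1B.NodalBC23.Model
import Fermat.Agent.T1B.NodalFacts23.Good

set_option autoImplicit false
set_option linter.unusedSectionVars false
set_option linter.style.haveILetI false

noncomputable section

open TensorProduct Polynomial

namespace Fermat.Agent.T1B.Bridge48.ChartIsoN

open Fermat.Agent.ES.N34.NodalCore13
open Fermat.Agent.T1.ModelBC51.Abstract Fermat.Agent.T1.ModelBC51.Model
open Fermat.Agent.T1.ModelBC51.Equiv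
open Fermat.Agent.T1.ModelBC51.InvPi Fermat.Agent.T1.Dict59
open Fermat.Agent.T1.ChartIso20
open Fermat.Agent.T1B.NodalBC23.Abstract Fermat.Agent.T1B.NodalBC23.Model
open Fermat.Agent.T1B.NodalFacts23
open Fermat.Agent.Jac Fermat.Agent.T1.Coh60
open scoped Fermat.Agent.Jac.BaseChange75

universe u

variable {R K F : Type u} [CommRing R] [Field K] [Field F] [Algebra R K] [Algebra K F]
  [Algebra R F] [IsScalarTower R K F]
variable {R' L F' : Type u} [CommRing R'] [Field L] [Field F'] [Algebra R' L] [Algebra L F']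
  [Algebra R' F'] [IsScalarTower R' L F']
variable {π : R} {π' : R'} {O1 O2 : ValuationSubring F} {O1' O2' : ValuationSubring F'}
  (D : BCData K L π π' O1 O1') [Algebra R R'] (halg : ∀ r : R, algebraMap R R' r = D.iR r)
variable {t : F} {B0 B1 : Subalgebra R F} {B0' B1' : Subalgebra R' F'}
  (hK : NodalTwoChartModel R F π t B0 B1 O1 O2)
  (hL : NodalTwoChartModel R' F' π' (D.iF t) B0' B1' O1' O2')
  [IsFractionRing R K] [IsFractionRing R' L]
  (dvrR : ∀ r : R, r ≠ 0 → ∃ (k : ℕ) (v : Rˣ), r = π ^ k * v)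
  (dvrR' : ∀ r : R', r ≠ 0 → ∃ (k : ℕ) (v : R'ˣ), r = π' ^ k * v)
  (hld2 : LD2 D O2 O2') [CharZero K]

/-- The identification of chart 0 of the nodal hub. -/
def e0N : letI := algRL R R' L
    L ⊗[R] ↥B0 ≃ₐ[L] ↥(C0 (K := L) (D.iF t)) :=
  chartEquivL D halg rfl hK.int0 dvrR hK.pi_ne dvrR' hL.pi_ne hL.t_mem hL.intcl0
    (span0 D hK hL dvrR dvrR' hld2)

/-- The identification of chart 1 of the nodal hub. -/
def e1N : letI := algRL R R' L
    L ⊗[R] ↥B1 ≃ₐ[L] ↥(C1 (K := L) (D.iF t)) :=
  chartEquivL D halg (map_inv₀ D.iF t) hK.int1 dvrR hK.pi_ne dvrR' hL.pi_ne hL.tinv_mem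
    hL.intcl1 (span1 D hK hL dvrR dvrR' hld2)

theorem coe_e0N : letI := algRL R R' L
    ∀ z : L ⊗[R] ↥B0,
      ((e0N D halg hK hL dvrR dvrR' hld2 z : ↥(C0 (K := L) (D.iF t))) : F') = nu D halg B0 z :=
  fun _ => rfl

theorem coe_e1N : letI := algRL R R' L
    ∀ z : L ⊗[R] ↥B1,
      ((e1N D halg hK hL dvrR dvrR' hld2 z : ↥(C1 (K := L) (D.iF t))) : F') = nu D halg B1 z :=
  fun _ => rfl

/-- **CHARTISO-N.**  The generic fibre of the hub of the NODAL model is the field-level two-chart
curve of `F' / L` with coordinate `iF t`. -/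
def chartIsoN :
    letI := algRL R R' L
    letI := algebra0 B0 B1
    letI := algebra1 B0 B1
    haveI := isScalarTower0 B0 B1
    haveI := isScalarTower1 B0 B1
    Fermat.Agent.T1.Adapt96.ChartIso ((nodalChart hK).baseChange L) (D.iF t) :=
  letI := algRL R R' L
  letI := algebra0 B0 B1
  letI := algebra1 B0 B1
  haveI := isScalarTower0 B0 B1
  haveI := isScalarTower1 B0 B1
  { e0 := (e0N D halg hK hL dvrR dvrR' hld2).toRingEquiv
    e1 := (e1N D halg hK hL dvrR dvrR' hld2).toRingEquiv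
    e01 := (nu D halg (B0 ⊔ B1)).toRingHom
    e01_inj := nu_injective D halg dvrR hK.pi_ne
    comm0 := fun x => by
      show nu D halg (B0 ⊔ B1) (algebraMap (L ⊗[R] ↥B0) (L ⊗[R] ↥(B0 ⊔ B1)) x) =
        nu D halg B0 x
      induction x using TensorProduct.induction_on with
      | zero => rw [map_zero, map_zero, map_zero]
      | tmul l b =>
        rw [Fermat.Agent.Jac.BaseChange75.algebraMap_right_tmul, nu_tmul, nu_tmul]
        rfl
      | add x y hx hy => rw [map_add, map_add, hx, hy, map_add]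
    comm1 := fun x => by
      show nu D halg (B0 ⊔ B1) (algebraMap (L ⊗[R] ↥B1) (L ⊗[R] ↥(B0 ⊔ B1)) x) =
        nu D halg B1 x
      induction x using TensorProduct.induction_on with
      | zero => rw [map_zero, map_zero, map_zero]
      | tmul l b =>
        rw [Fermat.Agent.Jac.BaseChange75.algebraMap_right_tmul, nu_tmul, nu_tmul]
        rfl
      | add x y hx hy => rw [map_add, map_add, hx, hy, map_add]
    map_t := by
      show nu D halg B0 ((1 : L) ⊗ₜ[R] (⟨t, hK.t_mem⟩ : ↥B0)) = D.iF t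
      rw [nu_tmul, map_one, one_mul]
    map_s := by
      show nu D halg B1 ((1 : L) ⊗ₜ[R] (⟨t⁻¹, hK.tinv_mem⟩ : ↥B1)) = (D.iF t)⁻¹
      rw [nu_tmul, map_one, one_mul, map_inv₀]
    linear0 := fun a => by
      show nu D halg B0 (algebraMap L (L ⊗[R] ↥B0) a) = algebraMap L F' a
      exact (nu D halg B0).commutes a
    linear1 := fun a => by
      show nu D halg B1 (algebraMap L (L ⊗[R] ↥B1) a) = algebraMap L F' a
      exact (nu D halg B1).commutes a }

/-! ### The chart isomorphism is standard on pure tensors -/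

theorem chartIsoN_e0_tmul (l : L) (b : ↥B0) :
    letI := algRL R R' L
    letI := algebra0 B0 B1
    letI := algebra1 B0 B1
    haveI := isScalarTower0 B0 B1
    haveI := isScalarTower1 B0 B1
    (((chartIsoN D halg hK hL dvrR dvrR' hld2).e0 (l ⊗ₜ[R] b) : ↥(C0 (K := L) (D.iF t))) : F') =
      algebraMap L F' l * D.iF (b : F) := rfl

theorem chartIsoN_e1_tmul (l : L) (b : ↥B1) :
    letI := algRL R R' L
    letI := algebra0 B0 B1
    letI := algebra1 B0 B1
    haveI := isScalarTower0 B0 B1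
    haveI := isScalarTower1 B0 B1
    (((chartIsoN D halg hK hL dvrR dvrR' hld2).e1 (l ⊗ₜ[R] b) : ↥(C1 (K := L) (D.iF t))) : F') =
      algebraMap L F' l * D.iF (b : F) := rfl

theorem chartIsoN_e01_tmul (l : L) (b : ↥(B0 ⊔ B1)) :
    letI := algRL R R' L
    letI := algebra0 B0 B1
    letI := algebra1 B0 B1
    haveI := isScalarTower0 B0 B1
    haveI := isScalarTower1 B0 B1
    (chartIsoN D halg hK hL dvrR dvrR' hld2).e01 (l ⊗ₜ[R] b) =
      algebraMap L F' l * D.iF (b : F) := rfl

theorem chartIsoN_e0_apply :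
    letI := algRL R R' L
    letI := algebra0 B0 B1
    letI := algebra1 B0 B1
    haveI := isScalarTower0 B0 B1
    haveI := isScalarTower1 B0 B1
    ∀ z : L ⊗[R] ↥B0,
      (((chartIsoN D halg hK hL dvrR dvrR' hld2).e0 z : ↥(C0 (K := L) (D.iF t))) : F') =
        nu D halg B0 z :=
  fun _ => rfl

theorem chartIsoN_e1_apply :
    letI := algRL R R' L
    letI := algebra0 B0 B1
    letI := algebra1 B0 B1
    haveI := isScalarTower0 B0 B1
    haveI := isScalarTower1 B0 B1
    ∀ z : L ⊗[R] ↥B1,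
      (((chartIsoN D halg hK hL dvrR dvrR' hld2).e1 z : ↥(C1 (K := L) (D.iF t))) : F') =
        nu D halg B1 z :=
  fun _ => rfl

theorem chartIsoN_e01_apply :
    letI := algRL R R' L
    letI := algebra0 B0 B1
    letI := algebra1 B0 B1
    haveI := isScalarTower0 B0 B1
    haveI := isScalarTower1 B0 B1
    ∀ z : L ⊗[R] ↥(B0 ⊔ B1),
      (chartIsoN D halg hK hL dvrR dvrR' hld2).e01 z = nu D halg (B0 ⊔ B1) z :=
  fun _ => rfl

/-- the structure maps `γ_j = D.iF ∘ (↑) : ↥B → F'` of the standard form. -/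
def gammaOf (B : Subalgebra R F) : ↥B →+* F' := D.iF.comp B.val.toRingHom

theorem gammaOf_apply (B : Subalgebra R F) (b : ↥B) : gammaOf D B b = D.iF (b : F) := rfl

/-- **`chartIsoN` is standard** (`ChartIso90.IsStdIsoG`) for `γ_j = D.iF ∘ (↑)`. -/
theorem isStdIsoG_chartIsoN :
    letI := algRL R R' L
    letI := algebra0 B0 B1
    letI := algebra1 B0 B1
    haveI := isScalarTower0 B0 B1
    haveI := isScalarTower1 B0 B1
    Fermat.Agent.T1.ChartIso90.IsStdIsoG (gammaOf D B0) (gammaOf D B1) (gammaOf D (B0 ⊔ B1))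
      (chartIsoN D halg hK hL dvrR dvrR' hld2) :=
  letI := algRL R R' L
  letI := algebra0 B0 B1
  letI := algebra1 B0 B1
  haveI := isScalarTower0 B0 B1
  haveI := isScalarTower1 B0 B1
  { std0 := fun _ _ => rfl
    std1 := fun _ _ => rfl
    std01 := fun _ _ => rfl }

end Fermat.Agent.T1B.Bridge48.ChartIsoN
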