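/-
T1B (S44), J-BRIDGE slice (B1) CHARTISO-N (helper48), part 2c: **the nodal hub exists over every
INERTIAL number field `K ∋ ζ_{M'}`** (`4 ∣ M'`, `q` odd, `q ∤ M'`): the record
`HubRec.NodalHubAt A q M' 4 8 K` is inhabited, by `ES/P36/ModelInert4.nodalNumData_four_inertial`
and the existence of a uniformiser of the discrete valuation ring `A ∩ K`.
Also the `q = 2`, `9 ∣ M'` twin.
-/
import Mathlib
import Fermat.Agent.T1B.Bridge48.HubRec
import Fermat.Agent.ES.P36.ModelInert4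
import Fermat.Agent.RED.DESC.NumberFieldDVR27

set_option autoImplicit false
set_option linter.unusedSectionVars false
set_option linter.style.haveILetI false
set_option synthInstance.maxHeartbeats 400000
set_option maxHeartbeats 1000000

noncomputable section

namespace Fermat.Agent.T1B.Bridge48.HubExists

open Fermat.Agent.RED.Interface4 Fermat.Agent.RED.PUR.GaussGen8
  Fermat.Agent.RED.DESC.NumberFieldDVR27 Fermat.Agent.RED.BASE.EtaQuot12
  Fermat.Agent.ES.P36.InertField27 Fermat.Agent.ES.P36.ModelInert4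
  Fermat.Agent.T1B.Bridge48.HubRec Fermat.Agent.X0

variable {M' : ℕ} [NeZero M'] {q : ℕ} [NeZero q] {A : ValuationSubring Qbar}
  {K : IntermediateField ℚ Qbar}

/-- `A ∩ K` has a uniformiser (in the sense of `GaussGen8.IsUnif`). -/
theorem exists_isUnif_AK (hq0 : q ≠ 0) (hA : A.LiesOverPrime q) [FiniteDimensional ℚ K] :
    ∃ π : ↥(AK A K), IsUnif (AK A K) π := by
  haveI : IsDiscreteValuationRing ↥(AK A K) := isDiscreteValuationRing_AK A K hq0 hA
  obtain ⟨π, hπ⟩ := IsDiscreteValuationRing.exists_irreducible ↥(AK A K)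
  exact ⟨π, isUnif_of_irreducible (AK A K) hπ⟩

/-- **The nodal hub over an inertial number field** (`q` odd, `4 ∣ M'`). -/
theorem nonempty_nodalHubAt_four_inertial (hq : q.Prime) (hq2 : q ≠ 2) (hqM : ¬ q ∣ M')
    (hM : 4 ∣ M') (hA : A.LiesOverPrime q) [FiniteDimensional ℚ K] (hK : IsInertial A K)
    (hζ : zetaK M' ∈ K) : Nonempty (NodalHubAt A q M' 4 8 K) := by
  obtain ⟨ht, hE, h⟩ := nodalNumData_four_inertial hq hq2 hqM hM hA hK hζ
  obtain ⟨π, hπ⟩ := exists_isUnif_AK (K := K) hq.ne_zero hA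
  exact ⟨⟨ht, hE, π, hπ, h π hπ⟩⟩

/-- **The nodal hub over an inertial number field** (`q = 2`, `9 ∣ M'`). -/
theorem nonempty_nodalHubAt_nine_inertial [NeZero 2] (hqM : ¬ 2 ∣ M')
    (hM : 9 ∣ M') (hA : A.LiesOverPrime 2) [FiniteDimensional ℚ K] (hK : IsInertial A K)
    (hζ : zetaK M' ∈ K) : Nonempty (NodalHubAt A 2 M' 9 3 K) := by
  obtain ⟨ht, hE, h⟩ := nodalNumData_nine_inertial hqM hM hA hK hζ
  obtain ⟨π, hπ⟩ := exists_isUnif_AK (K := K) two_ne_zero hA
  exact ⟨⟨ht, hE, π, hπ, h π hπ⟩⟩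

end Fermat.Agent.T1B.Bridge48.HubExists
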