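/-
T1B (S44) / MAZ (S15) / S33, J-BRIDGE at the CONCRETE HUB `Hub9` (helper48): **the chart isomorphism
family of the source chart system `c0S H`** (nodal, level `M' * p`) of helper9's concrete hub, and the
two generic-fibre facts needed by the injectivity of the bridge.

`H : Hub9.HubParams p M' K` (`p` odd, `4 ∣ M'`, `p ∤ M'`, `ζ_{M'} ∈ K`, `K` inertial at `padicPlace p`).
* `hubAt H : HubRec.NodalHubAt (padicPlace p) p M' 4 8 K` with `(hubAt H).c0 = c0S H` (`rfl`);
* **`famS H : Bridge39.ChartIsoFamilyN (padicPlace p) (M' * p) K (c0S H)`** (helper25's concrete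
  standard `E_L` of `Bridge25/ChartIsoNF` plugged into `Bridge48/HubFam.nodalFamily`);
* `nontrivial_S H : Nontrivial (Kbar p ⊗[W] ↥(B0S H))` (`letI := algWKbar p K`; flatness of the chart
  over the DVR `W`), also for `B1S`, `B0S ⊔ B1S`;
* `h0Const_S H : Red68.H0Const ((c0S H).baseChange (Kbar p))` (`NodalCoh30.concrete_h0Const`).
-/
import Mathlib
import Fermat.Agent.T1B.Hub9.Data
import Fermat.Agent.T1B.Bridge48.HubFam
import Fermat.Agent.T1B.Bridge25.ChartIsoNF
import Fermat.Agent.T1B.NodalHub49.Facts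

set_option autoImplicit false
set_option linter.unusedSectionVars false
set_option linter.unusedVariables false
set_option linter.style.haveILetI false
set_option synthInstance.maxHeartbeats 400000
set_option maxHeartbeats 1000000

noncomputable section

open TensorProduct

namespace Fermat.Agent.T1B.Bridge48.HubFam9

open Fermat.Agent Fermat.Agent.Jac Fermat.Agent.T1.HubInst98 Fermat.Agent.TW.B5.Iface
open Fermat.Agent.RED.Interface4 Fermat.Agent.RED.PUR.GaussGen8
  Fermat.Agent.RED.BASE.EtaQuot12 Fermat.Agent.ES.N34.ModelDefs9 Fermat.Agent.ES.N34.NumData13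
  Fermat.Agent.T1.Adapt96 Fermat.Agent.T1.Dict59 Fermat.Agent.T1.Coh60
  Fermat.Agent.T1.ChartIso90 Fermat.Agent.T1B.Bridge39
  Fermat.Agent.T1.Assembly41.Concrete
  Fermat.Agent.T1B.Local66.LocalBase Fermat.Agent.T1B.Hub9
  Fermat.Agent.T1B.Bridge48.HubRec Fermat.Agent.T1B.Bridge48.HubFam
open scoped Fermat.Agent.Jac.BaseChange75

attribute [local instance] Fermat.Agent.T1.Coh60.algebra0 Fermat.Agent.T1.Coh60.algebra1
  Fermat.Agent.T1.Coh60.isScalarTower0 Fermat.Agent.T1.Coh60.isScalarTower1

variable {p M' : ℕ} [Fact p.Prime] [NeZero p] [NeZero M'] {K : IntermediateField ℚ Qbar}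
  [FiniteDimensional ℚ K]

/-- **The hub record of `Hub9`.** -/
def hubAt (H : HubParams p M' K) : NodalHubAt (padicPlace p) p M' 4 8 K where
  ht := H.htq
  hE := hES p M' K
  π := piW p K
  hπ := isUnif_piW p K
  num := numDataS H

theorem hubAt_c0 (H : HubParams p M' K) : (hubAt H).c0 = c0S H := rfl

/-- **The chart isomorphism family of the source chart system of the concrete hub.** -/
def famS (H : HubParams p M' K) : ChartIsoFamilyN (padicPlace p) (M' * p) K (c0S H) :=
  nodalFamily (hubAt H)
    (fun L _ _ hle =>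
      Fermat.Agent.T1B.Bridge25.ChartIsoNF.EL (padicPlace p) hle M' p
        (Fact.out : p.Prime).ne_zero (hA p) (isUnif_piW p K) (isUnif_piW p L) (hES p M' K)
        (hES p M' L) H.htq (htL (hubAt H) hle) (numDataS H))
    (fun L _ _ hle =>
      Fermat.Agent.T1B.Bridge25.ChartIsoNF.isStdIso_EL (padicPlace p) hle M' p
        (Fact.out : p.Prime).ne_zero (hA p) (isUnif_piW p K) (isUnif_piW p L) (hES p M' K)
        (hES p M' L) H.htq (htL (hubAt H) hle) (numDataS H))

/-! ### The generic fibre over `ℚ̄_p` -/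

theorem algebraMap_W_Kbar_injective :
    letI := algWKbar p K
    Function.Injective (algebraMap (Wb p K) (Kbar p)) := by
  letI := algWKbar p K
  exact iotaW_injective p K

/-- `ℚ̄_p ⊗[W] ↥B` is nontrivial for every chart `B` (a `W`-subalgebra of the function field). -/
theorem nontrivial_tensor (H : HubParams p M' K) (B : Subalgebra (Wb p K) (FS p M' K)) :
    letI := algWKbar p K
    Nontrivial (Kbar p ⊗[Wb p K] ↥B) := by
  letI := algWKbar p K
  haveI : Module.Flat (Wb p K) ↥B :=
    Fermat.Agent.T1B.NodalHub49.flat_subalgebra (numDataS H) B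
  exact (Algebra.TensorProduct.includeRight_injective (R := Wb p K) (A := Kbar p) (B := ↥B)
    (algebraMap_W_Kbar_injective (p := p) (K := K))).nontrivial

theorem nontrivial_S (H : HubParams p M' K) :
    letI := algWKbar p K
    Nontrivial (Kbar p ⊗[Wb p K] ↥(B0S H)) :=
  nontrivial_tensor H (B0S H)

theorem nontrivial_S1 (H : HubParams p M' K) :
    letI := algWKbar p K
    Nontrivial (Kbar p ⊗[Wb p K] ↥(B1S H)) :=
  nontrivial_tensor H (B1S H)

theorem nontrivial_S01 (H : HubParams p M' K) :
    letI := algWKbar p K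
    Nontrivial (Kbar p ⊗[Wb p K] ↥(B0S H ⊔ B1S H)) :=
  nontrivial_tensor H (B0S H ⊔ B1S H)

/-- `H⁰(O_{X_{ℚ̄_p}}) = ℚ̄_p` for the source chart system. -/
theorem h0Const_S (H : HubParams p M' K) :
    letI := algWKbar p K
    Fermat.Agent.T1.Red68.H0Const ((c0S H).baseChange (Kbar p)) := by
  letI := algWKbar p K
  exact Fermat.Agent.T1B.NodalCoh30.concrete_h0Const (isUnif_piW p K) (hES p M' K) (numDataS H)
    (Kbar p)

end Fermat.Agent.T1B.Bridge48.HubFam9
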